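import Fermat.Agent.SchinzelTijdeman.Main
import Mathlib.Analysis.SpecialFunctions.Pow.Complex

/-!
# Perfect powers as coordinates on `v² - D u² = c`

With `u = b y ^ q` this is `D b² y ^ (2 q) = v² - c`, and `X² - c` has two simple roots.
-/

set_option autoImplicit false

noncomputable section

namespace FA.RecurrencePowerBound

open Polynomial

/-- The `u` on `v² - D u² = c` of the form `b y ^ q`, `q ≥ 2`, are finitely many. -/
theorem pell_powers_finite {D c b : ℤ} (hD : D ≠ 0) (hc : c ≠ 0) (hb : b ≠ 0) :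
    {u : ℤ | (∃ v : ℤ, v ^ 2 - D * u ^ 2 = c) ∧
      ∃ (y : ℤ) (q : ℕ), 2 ≤ q ∧ u = b * y ^ q}.Finite := by
  obtain ⟨w, hw⟩ := IsAlgClosed.exists_pow_nat_eq (c : ℂ) (n := 2) two_pos
  have hw0 : w ≠ 0 := fun h => hc (Int.cast_eq_zero.1 (hw.symm.trans (by simp [h])))
  have hne : w ≠ -w := fun h => hw0 (by linear_combination h / 2)
  set f : ℤ[X] := X ^ 2 - C c with hf
  have hw' : (-w) ^ 2 = (c : ℂ) := by rw [neg_sq, hw]
  have hroot : ∀ i, aeval (![w, -w] i) f = 0 := fun i => by
    fin_cases i <;> simp [hf, hw]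
  have hroot' : ∀ i, aeval (![w, -w] i) f.derivative ≠ 0 := fun i => by
    fin_cases i <;> simp [hf, hw0, map_ofNat]
  have hinj : Function.Injective ![w, -w] := fun i j h => by
    fin_cases i <;> fin_cases j <;> simp_all
  have hB : D * b ^ 2 ≠ 0 := mul_ne_zero hD (pow_ne_zero 2 hb)
  obtain ⟨M, hM⟩ := SchinzelTijdeman.exponent_bounded hne (hroot 0) (hroot 1) hB
  set k := c.natAbs + (D * b ^ 2).natAbs + 1
  have hk : ∀ i, (f.coeff i).natAbs ≤ 2 ^ k := fun i => by
    refine le_trans ?_ Nat.lt_two_pow_self.le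
    rw [hf, coeff_sub, coeff_X_pow, coeff_C]
    refine (Int.natAbs_sub_le _ _).trans ?_
    split_ifs <;> omega
  have hbk : (D * b ^ 2).natAbs ≤ 2 ^ k := by
    refine le_trans ?_ Nat.lt_two_pow_self.le
    omega
  set V := ∑ m ∈ Finset.range (M + 1), BakerExplicit.Superelliptic.powerBound f.natDegree k m
  set U : ℕ := b.natAbs * (2 ^ V) ^ M + b.natAbs
  refine Set.Finite.subset (Set.finite_Icc (-(U : ℤ)) U) ?_
  rintro u ⟨⟨v, hv⟩, y, q, hq, hu⟩
  suffices h : u.natAbs ≤ U by constructor <;> omega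
  rw [hu, Int.natAbs_mul, Int.natAbs_pow]
  rcases lt_or_ge y.natAbs 2 with hy | hy
  · exact le_add_left ((Nat.mul_le_mul_left _ (pow_le_one₀ (Nat.zero_le _) (by omega))).trans
      (mul_one _).le)
  have heq : D * b ^ 2 * y ^ (2 * q) = f.eval v := by
    rw [hf, eval_sub, eval_pow, eval_X, eval_C]
    rw [hu] at hv
    linear_combination -hv
  have hqM : 2 * q ≤ M := hM v y (2 * q) (by rw [Int.abs_eq_natAbs]; omega) heq
  have h1 := (BakerExplicit.Baker1969.superelliptic_effective le_rfl hk hinj hroot hroot'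
    (by omega : 3 ≤ 2 * q) hB hbk heq).2
  have h2 : y.natAbs ≤ 2 ^ V := h1.le.trans (Nat.pow_le_pow_right two_pos
    (Finset.single_le_sum (f := fun i => BakerExplicit.Superelliptic.powerBound f.natDegree k i)
      (fun _ _ => Nat.zero_le _) (Finset.mem_range.2 (by omega))))
  exact le_add_right (Nat.mul_le_mul_left _
    ((Nat.pow_le_pow_left h2 q).trans (Nat.pow_le_pow_right (Nat.two_pow_pos V) (by omega))))

end FA.RecurrencePowerBound

end
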