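import Fermat.Agent.RecurrencePowerBound.Dominant
import Fermat.Agent.RecurrencePowerBound.Pell
import Mathlib.NumberTheory.Real.Irrational

/-!
# Perfect powers in binary recurrences

`u (n + 2) = P u (n + 1) + Q u n` with `D = P² + 4 Q` positive and no square: a dominant root if
`P ≠ 0`, and for `Q = ± 1` the invariant `v² - D u² = ± c₀`, `v = 2 u (n + 1) - P u n`.
-/

set_option autoImplicit false

noncomputable section

namespace FA.RecurrencePowerBound

variable {P Q : ℤ} {u : ℕ → ℤ}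

/-- The sequence `u (n + 1) - β u n` is geometric. -/
theorem companion_geometric {R : Type*} [CommRing R] {α β : R} (hs : α + β = (P : R))
    (hp : α * β = -(Q : R)) (hrec : ∀ n, u (n + 2) = P * u (n + 1) + Q * u n) (n : ℕ) :
    (u (n + 1) : R) - β * (u n : R) = α ^ n * ((u 1 : R) - β * (u 0 : R)) := by
  induction n with
  | zero => simp
  | succ n ih =>
    rw [hrec n]
    push_cast
    linear_combination α * ih - (u (n + 1) : R) * hs + (u n : R) * hp

/-- The closed formula. -/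
theorem closed_formula {R : Type*} [Field R] {α β : R} (hs : α + β = (P : R))
    (hp : α * β = -(Q : R)) (hne : α ≠ β) (hrec : ∀ n, u (n + 2) = P * u (n + 1) + Q * u n)
    (n : ℕ) : (u n : R) = ((u 1 : R) - β * (u 0 : R)) / (α - β) * α ^ n -
      ((u 1 : R) - α * (u 0 : R)) / (α - β) * β ^ n := by
  have h1 := companion_geometric hs hp hrec n
  have h2 := companion_geometric (α := β) (β := α) (by rw [add_comm]; exact hs)
    (by rw [mul_comm]; exact hp) hrec n
  have hd : α - β ≠ 0 := sub_ne_zero.2 hne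
  field_simp
  linear_combination h1 - h2

section
variable (hD : 0 < P ^ 2 + 4 * Q) (hsq : ¬ IsSquare (P ^ 2 + 4 * Q))
include hD hsq

/-- `x √D` is an integer only for `x = 0`. -/
theorem sqrt_disc_mul_eq {x z : ℤ} (h : (x : ℝ) * √((P : ℝ) ^ 2 + 4 * Q) = z) :
    x = 0 ∧ z = 0 := by
  have hx : x = 0 := by
    by_contra hx
    refine ((irrational_sqrt_intCast_iff.2 ⟨hsq, hD.le⟩).intCast_mul hx).ne_int z ?_
    push_cast; exact h
  subst hx
  simpa [eq_comm] using h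

/-- Neither of `u 1 - u 0 (P ± √D) / 2` is zero. -/
theorem coefficient_ne_zero (hu : u 0 ≠ 0 ∨ u 1 ≠ 0) {s : ℤ} (hs : s = 1 ∨ s = -1) :
    (u 1 : ℝ) - ((P : ℝ) + s * √((P : ℝ) ^ 2 + 4 * Q)) / 2 * u 0 ≠ 0 := by
  intro h
  obtain ⟨h1, h2⟩ := sqrt_disc_mul_eq hD hsq (x := s * u 0) (z := 2 * u 1 - P * u 0) (by
    push_cast; linear_combination -2 * h)
  have h0 : u 0 = 0 := (mul_eq_zero.1 h1).resolve_left (by omega)
  rw [h0] at h2
  omega

theorem companion_initial_ne_zero (hu : u 0 ≠ 0 ∨ u 1 ≠ 0) :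
    (2 * u 1 - P * u 0) ^ 2 - (P ^ 2 + 4 * Q) * u 0 ^ 2 ≠ 0 := by
  intro h
  have hD' : (0 : ℝ) < (P : ℝ) ^ 2 + 4 * Q := by exact_mod_cast hD
  have ht := Real.mul_self_sqrt hD'.le
  set t := √((P : ℝ) ^ 2 + 4 * Q) with htdef
  have h' := congrArg (Int.cast : ℤ → ℝ) h
  push_cast at h'
  rcases mul_eq_zero.1 (show ((2 * u 1 - P * u 0 : ℤ) - u 0 * t : ℝ) *
      ((2 * u 1 - P * u 0 : ℤ) + u 0 * t) = 0 by
    push_cast; linear_combination h' - (u 0 : ℝ) ^ 2 * ht) with h1 | h1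
  · obtain ⟨h2, h3⟩ := sqrt_disc_mul_eq hD hsq (x := u 0) (z := 2 * u 1 - P * u 0)
      (by linarith)
    rw [h2] at h3; omega
  · obtain ⟨h2, h3⟩ := sqrt_disc_mul_eq hD hsq (x := u 0) (z := -(2 * u 1 - P * u 0))
      (by push_cast at h1 ⊢; linarith)
    rw [h2] at h3; omega

/-- The pairs `(u n, 2 u (n + 1) - P u n)` are different. -/
theorem pair_injective (hu : u 0 ≠ 0 ∨ u 1 ≠ 0)
    (hrec : ∀ n, u (n + 2) = P * u (n + 1) + Q * u n) :
    Function.Injective fun n => (u n, 2 * u (n + 1) - P * u n) := by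
  intro n m h
  obtain ⟨h1, h2⟩ := Prod.mk.inj h
  rw [h1] at h2
  have h3 : u (n + 1) = u (m + 1) := by omega
  have hD' : (0 : ℝ) < (P : ℝ) ^ 2 + 4 * Q := by exact_mod_cast hD
  have ht := Real.mul_self_sqrt hD'.le
  set t := √((P : ℝ) ^ 2 + 4 * Q)
  set α : ℝ := ((P : ℝ) + t) / 2
  set β : ℝ := ((P : ℝ) + ((-1 : ℤ) : ℝ) * t) / 2
  have hs : α + β = (P : ℝ) := by simp only [α, β]; push_cast; ring
  have hp : α * β = -(Q : ℝ) := by
    simp only [α, β]; push_cast; linear_combination -(1 / 4 : ℝ) * ht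
  have hn := companion_geometric hs hp hrec n
  rw [h1, h3, companion_geometric hs hp hrec m] at hn
  have hpow : α ^ m = α ^ n :=
    mul_right_cancel₀ (coefficient_ne_zero hD hsq hu (Or.inr rfl)) hn
  have hne : ∀ e : ℤ, (P : ℝ) + t ≠ e := fun e he =>
    one_ne_zero (sqrt_disc_mul_eq hD hsq (x := 1) (z := e - P) (by push_cast; linarith)).1
  have hα0 : 0 < |α| := abs_pos.2 fun h => hne 0 (by
    simp only [α] at h; push_cast; linarith)
  have hα1 : |α| ≠ 1 := fun h => by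
    rcases abs_choice α with h' | h' <;> rw [h'] at h
    · exact hne 2 (by simp only [α] at h; push_cast; linarith)
    · exact hne (-2) (by simp only [α] at h; push_cast; linarith)
  have hp' := congrArg abs hpow
  rw [abs_pow, abs_pow] at hp'
  exact (pow_right_injective₀ hα0 hα1 hp').symm

/-- **`Q = ± 1`: finitely many perfect powers, all exponents at once.** -/
theorem binary_powers_finite (hQ : Q.natAbs = 1) (hu : u 0 ≠ 0 ∨ u 1 ≠ 0)
    (hrec : ∀ n, u (n + 2) = P * u (n + 1) + Q * u n) {b : ℤ} (hb : b ≠ 0) :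
    {n : ℕ | ∃ (y : ℤ) (q : ℕ), 2 ≤ q ∧ u n = b * y ^ q}.Finite := by
  set c₀ := (2 * u 1 - P * u 0) ^ 2 - (P ^ 2 + 4 * Q) * u 0 ^ 2 with hc₀
  have hc : c₀ ≠ 0 := companion_initial_ne_zero hD hsq hu
  have hinv : ∀ n, ((2 * u (n + 1) - P * u n) ^ 2 - (P ^ 2 + 4 * Q) * u n ^ 2).natAbs =
      c₀.natAbs := by
    intro n
    induction n with
    | zero => rfl
    | succ n ih =>
      rw [hrec n, ← ih, show (2 * (P * u (n + 1) + Q * u n) - P * u (n + 1)) ^ 2 -
        (P ^ 2 + 4 * Q) * u (n + 1) ^ 2 =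
          -Q * ((2 * u (n + 1) - P * u n) ^ 2 - (P ^ 2 + 4 * Q) * u n ^ 2) by ring,
        Int.natAbs_mul, Int.natAbs_neg, hQ, one_mul]
  set V := {x : ℤ | (∃ v : ℤ, v ^ 2 - (P ^ 2 + 4 * Q) * x ^ 2 = c₀) ∧
      ∃ (y : ℤ) (q : ℕ), 2 ≤ q ∧ x = b * y ^ q} ∪
    {x : ℤ | (∃ v : ℤ, v ^ 2 - (P ^ 2 + 4 * Q) * x ^ 2 = -c₀) ∧
      ∃ (y : ℤ) (q : ℕ), 2 ≤ q ∧ x = b * y ^ q}
  have hV : V.Finite := (pell_powers_finite hD.ne' hc hb).union
    (pell_powers_finite hD.ne' (neg_ne_zero.2 hc) hb)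
  obtain ⟨W, hW⟩ := (hV.image fun x => ((P ^ 2 + 4 * Q) * x ^ 2).natAbs + c₀.natAbs).bddAbove
  refine Set.Finite.of_injOn (f := fun n => (u n, 2 * u (n + 1) - P * u n))
    (t := V ×ˢ Set.Icc (-(W : ℤ)) W) ?_ ((pair_injective hD hsq hu hrec).injOn)
    (hV.prod (Set.finite_Icc _ _))
  rintro n hn
  have hmem : u n ∈ V := by
    rcases Int.natAbs_eq_natAbs_iff.1 (hinv n) with h | h
    · exact Or.inl ⟨⟨_, h⟩, hn⟩
    · exact Or.inr ⟨⟨_, h⟩, hn⟩
  refine Set.mk_mem_prod hmem ?_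
  have h1 : ((P ^ 2 + 4 * Q) * u n ^ 2).natAbs + c₀.natAbs ≤ W := hW ⟨u n, hmem, rfl⟩
  have h3 := hinv n
  set v := 2 * u (n + 1) - P * u n
  set e := (P ^ 2 + 4 * Q) * u n ^ 2
  have h2 : v.natAbs ≤ (v ^ 2 - e).natAbs + e.natAbs := by
    refine le_trans ?_ (Int.natAbs_add_le _ _)
    rw [sub_add_cancel, Int.natAbs_pow]
    exact Nat.le_self_pow two_ne_zero _
  constructor <;> omega

/-- **Any `Q`, `P ≠ 0`: the exponents of the perfect powers are bounded.** -/
theorem binary_exponent_bounded (hP : P ≠ 0) (hu : u 0 ≠ 0 ∨ u 1 ≠ 0)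
    (hrec : ∀ n, u (n + 2) = P * u (n + 1) + Q * u n) {b : ℤ} (hb : b ≠ 0) :
    ∃ M : ℕ, ∀ (n q : ℕ) (y : ℤ), 2 ≤ |y| → b * y ^ q = u n → q ≤ M := by
  have hD' : (0 : ℝ) < (P : ℝ) ^ 2 + 4 * Q := by exact_mod_cast hD
  have ht := Real.mul_self_sqrt hD'.le
  have ht0 := Real.sqrt_pos.2 hD'
  set t := √((P : ℝ) ^ 2 + 4 * Q) with htdef
  have htint : IsIntegral ℚ (t : ℂ) := by
    refine IsIntegral.of_pow two_pos ?_
    rw [show (t : ℂ) ^ 2 = algebraMap ℚ ℂ ((P ^ 2 + 4 * Q : ℤ) : ℚ) by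
      rw [sq, ← Complex.ofReal_mul, ht]; simp]
    exact isIntegral_algebraMap
  set K := IntermediateField.adjoin ℚ ({(t : ℂ)} : Set ℂ)
  have : FiniteDimensional ℚ K := IntermediateField.adjoin.finiteDimensional htint
  have : NumberField K := ⟨⟩
  set T : K := ⟨(t : ℂ), IntermediateField.mem_adjoin_simple_self ℚ _⟩
  set s := P.sign
  have hs : s = 1 ∨ s = -1 := by
    rcases lt_or_gt_of_ne hP with h | h
    · exact Or.inr (Int.sign_eq_neg_one_of_neg h)
    · exact Or.inl (Int.sign_eq_one_of_pos h)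
  have hs2 : (s : ℝ) * s = 1 := by rcases hs with h | h <;> simp [h]
  set ψ := algebraMap K ℂ
  set α : K := ((P : K) + (s : K) * T) / 2 with hα
  set β : K := ((P : K) - (s : K) * T) / 2 with hβ
  have hψT : ψ T = (t : ℂ) := rfl
  have hψα : ψ α = ((((P : ℝ) + s * t) / 2 : ℝ) : ℂ) := by
    simp only [hα, map_div₀, map_add, map_mul, map_intCast, map_ofNat, hψT]; push_cast; ring
  have hψβ : ψ β = ((((P : ℝ) - s * t) / 2 : ℝ) : ℂ) := by
    simp only [hβ, map_div₀, map_sub, map_mul, map_intCast, map_ofNat, hψT]; push_cast; ring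
  have hsum : α + β = (P : K) := by rw [hα, hβ]; ring
  have hprod : α * β = -(Q : K) := ψ.injective (by
    rw [map_mul, hψα, hψβ, map_neg, map_intCast, ← Complex.ofReal_mul,
      show ((P : ℝ) + s * t) / 2 * (((P : ℝ) - s * t) / 2) = -(Q : ℝ) by
        linear_combination (-(s : ℝ) * s / 4) * ht - ((P : ℝ) ^ 2 / 4 + (Q : ℝ)) * hs2]
    push_cast; rfl)
  have habs : (|(P : ℝ)| + t) / 2 = |((P : ℝ) + s * t) / 2| ∧
      |((P : ℝ) - s * t) / 2| < (|(P : ℝ)| + t) / 2 ∧ 1 < (|(P : ℝ)| + t) / 2 := by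
    have hP1 : (1 : ℝ) ≤ |(P : ℝ)| := by exact_mod_cast Int.one_le_abs hP
    have ht1 : 1 < t := by
      rw [htdef, Real.lt_sqrt zero_le_one, one_pow]
      have : 1 < P ^ 2 + 4 * Q := by
        rcases (show 1 ≤ P ^ 2 + 4 * Q from hD).lt_or_eq with h | h
        · exact h
        · exact absurd (h ▸ IsSquare.one) hsq
      exact_mod_cast this
    rcases lt_or_gt_of_ne hP with h | h
    · have hs' : (s : ℝ) = -1 := by simp [s, Int.sign_eq_neg_one_of_neg h]
      have hPR : (P : ℝ) < 0 := Int.cast_lt_zero.2 h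
      rw [hs', abs_of_neg hPR] at *
      refine ⟨?_, abs_lt.2 ⟨by linarith, by linarith⟩, by linarith⟩
      rw [abs_of_neg (by linarith)]; ring
    · have hs' : (s : ℝ) = 1 := by simp [s, Int.sign_eq_one_of_pos h]
      have hPR : (0 : ℝ) < P := Int.cast_pos.2 h
      rw [hs', abs_of_pos hPR] at *
      refine ⟨?_, abs_lt.2 ⟨by linarith, by linarith⟩, by linarith⟩
      rw [abs_of_pos (by linarith)]; ring
  have hne : α ≠ β := fun h => by
    have h1 := congrArg ψ h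
    rw [hψα, hψβ] at h1
    have h2 := Complex.ofReal_inj.1 h1
    rw [← h2] at habs
    linarith [habs.1, habs.2.1]
  have hβ0 : β ≠ 0 := fun h => by
    have h1 := congrArg ψ h
    rw [hψβ, map_zero] at h1
    have h2 := Complex.ofReal_eq_zero.1 h1
    have h3 := sqrt_disc_mul_eq hD hsq (x := s) (z := P) (by rw [← htdef]; linarith)
    rcases hs with h' | h' <;> omega
  have ha : ((u 1 : K) - β * (u 0 : K)) / (α - β) ≠ 0 :=
    div_ne_zero (fun h => coefficient_ne_zero hD hsq hu (s := -s) (by omega) (by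
      have h1 := congrArg ψ h
      rw [map_sub, map_mul, map_intCast, map_intCast, hψβ, map_zero] at h1
      refine Complex.ofReal_eq_zero.1 (Eq.trans ?_ h1)
      push_cast; ring)) (sub_ne_zero.2 hne)
  have hc : ((u 1 : K) - α * (u 0 : K)) / (α - β) ≠ 0 :=
    div_ne_zero (fun h => coefficient_ne_zero hD hsq hu hs (by
      have h1 := congrArg ψ h
      rw [map_sub, map_mul, map_intCast, map_intCast, hψα, map_zero] at h1
      refine Complex.ofReal_eq_zero.1 (Eq.trans ?_ h1)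
      push_cast; ring)) (sub_ne_zero.2 hne)
  obtain ⟨M, hM⟩ := dominant_exponent_bounded ψ ha
    (by rw [hψα, Complex.norm_real, Real.norm_eq_abs, ← habs.1]; exact habs.2.2)
    (C := ‖ψ (((u 1 : K) - α * (u 0 : K)) / (α - β))‖) (ρ := ‖ψ β‖)
    (by
      rw [hψα, hψβ, Complex.norm_real, Complex.norm_real, Real.norm_eq_abs, Real.norm_eq_abs,
        ← habs.1]
      exact habs.2.1)
    (norm_nonneg _)
    (fun n => by
      have h1 := congrArg ψ (closed_formula hsum hprod hne hrec n)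
      rw [map_intCast, map_sub, map_mul, map_mul, map_pow, map_pow] at h1
      rw [h1, sub_sub_cancel_left, norm_neg, norm_mul, norm_pow]) hb
  refine ⟨M, fun n q y hy heq => hM n q y hy heq fun h => ?_⟩
  rw [closed_formula hsum hprod hne hrec n, sub_eq_self] at h
  exact mul_ne_zero hc (pow_ne_zero n hβ0) h

end

end FA.RecurrencePowerBound

end
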