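import Fermat.Agent.SchinzelTijdeman.Exponent

/-!
# Perfect powers in sequences with a dominant root (Shorey–Stewart)

`n = q k + r` turns `b y ^ q / (a α ^ n)` into two fixed numbers with exponents below `q` times the
`q`-th power of `y / α ^ k`, whose height is `O (n / q + 1)`.
-/

set_option autoImplicit false

noncomputable section

namespace FA.RecurrencePowerBound

open NumberField Module
open FA.SchinzelTijdeman (form_le exponent_le exists_height_sub_le)

variable {K : Type*} [Field K] [NumberField K]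

set_option maxHeartbeats 800000 in
/-- **Shorey and Stewart**: an integer sequence within `C ρ ^ n` of `a α ^ n`, `ρ < |α|`, takes
values `b y ^ q`, other than `a α ^ n`, only for bounded `q`. -/
theorem dominant_exponent_bounded (ψ : K →+* ℂ) {a α : K} (ha : a ≠ 0) (hα : 1 < ‖ψ α‖) {C ρ : ℝ}
    (hρ : ρ < ‖ψ α‖) (hρ0 : 0 ≤ ρ) {u : ℕ → ℤ}
    (hu : ∀ n, ‖(u n : ℂ) - ψ a * ψ α ^ n‖ ≤ C * ρ ^ n) {b : ℤ} (hb : b ≠ 0) :
    ∃ M : ℕ, ∀ (n q : ℕ) (y : ℤ), 2 ≤ |y| → b * y ^ q = u n →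
      (u n : K) ≠ a * α ^ n → q ≤ M := by
  have hψa : 0 < ‖ψ a‖ := norm_pos_iff.2 ((map_ne_zero ψ).2 ha)
  have hC : 0 ≤ C := by simpa using le_trans (norm_nonneg _) (hu 0)
  have hα0 : α ≠ 0 := fun h => by simp [h] at hα; linarith
  have hbK : (b : K) / a ≠ 0 := div_ne_zero (Int.cast_ne_zero.2 hb) ha
  set G : Fin 2 → Kˣ := ![Units.mk0 _ hbK, Units.mk0 _ (inv_ne_zero hα0)] with hGdef
  -- a number between the ratio of the roots and one
  set θ : ℝ := max (ρ / ‖ψ α‖) (1 / 2) with hθ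
  have hθ1 : θ < 1 := max_lt ((div_lt_one (by linarith)).2 hρ) (by norm_num)
  have hθ0 : 0 < θ := lt_of_lt_of_le (by norm_num) (le_max_right _ _)
  set lam := -Real.log θ with hlam
  have hlam0 : 0 < lam := neg_pos.2 (Real.log_neg hθ0 hθ1)
  set L := Real.log ‖ψ α‖ with hL
  have hL0 : 0 < L := Real.log_pos hα
  obtain ⟨cy, hcy⟩ := exists_height_sub_le (0 : 𝓞 K)
  obtain ⟨t, ht⟩ : ∃ t : ℕ, Height.logHeight₁ (G 0 : K) ≤ t ∧ Height.logHeight₁ (G 1 : K) ≤ t ∧
      Height.logHeight₁ α ≤ t ∧ L ≤ t ∧ Real.log (‖ψ a‖ + C + 1) ≤ t := by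
    refine ⟨⌈|Height.logHeight₁ (G 0 : K)| + |Height.logHeight₁ (G 1 : K)| +
      |Height.logHeight₁ α| + |L| + |Real.log (‖ψ a‖ + C + 1)|⌉₊, ?_⟩
    refine ⟨?_, ?_, ?_, ?_, ?_⟩ <;> refine le_trans ?_ (Nat.le_ceil _) <;>
      linarith [abs_nonneg (Height.logHeight₁ (G 0 : K)), le_abs_self (Height.logHeight₁ (G 0 : K)),
        abs_nonneg (Height.logHeight₁ (G 1 : K)), le_abs_self (Height.logHeight₁ (G 1 : K)),
        abs_nonneg (Height.logHeight₁ α), le_abs_self (Height.logHeight₁ α),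
        abs_nonneg L, le_abs_self L, abs_nonneg (Real.log (‖ψ a‖ + C + 1)),
        le_abs_self (Real.log (‖ψ a‖ + C + 1))]
  obtain ⟨htG0, htG1, htα, htL, htc⟩ := ht
  set d := finrank ℚ K
  set h := d * (2 * t + cy) + t + t + 8 with hh
  obtain ⟨Cst, hCst⟩ : ∃ X, BakerLastHeight.lastHeightConst (2 + 1) d = X := ⟨_, rfl⟩
  obtain ⟨κ, hκdef⟩ : ∃ κ, BakerLastHeight.lastHeightKappa (2 + 1) = κ := ⟨_, rfl⟩
  have hκ : 1 ≤ κ := by
    have := BakerLastHeight.coreKappa_facts (2 + 1 + 1)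
    rw [← hκdef, BakerLastHeight.lastHeightKappa]
    omega
  obtain ⟨D, hD⟩ : ∃ D, D = (Cst * (h + 2 + 1 + 3)) ^ κ := ⟨_, rfl⟩
  -- the constants of the two inequalities
  set N := ⌈L / lam⌉₊ with hN
  set W := ⌈max 1 lam⁻¹⌉₊ with hW
  set c := ⌈2 * (C / ‖ψ a‖) + 1⌉₊ with hc
  refine ⟨2 * (2 * t + 4 * N * c) + 2 * (2 * κ) ^ (2 * κ) * ((4 * N + 2) * (W * D)) ^ 2,
    fun n q y hy heq hne => BakerExplicit.le_of_le_add_mul_log_pow hκ ?_⟩
  rcases le_or_gt q 1 with hq | hq
  · refine le_trans hq (le_add_of_le_of_nonneg ?_ (Nat.zero_le _))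
    have ht1 : 1 ≤ t := by
      have h1 : Real.log (‖ψ a‖ + C + 1) ≤ t := htc
      have h2 : 0 < Real.log (‖ψ a‖ + C + 1) := Real.log_pos (by linarith)
      exact_mod_cast (Nat.cast_pos.1 (show (0 : ℝ) < t by linarith))
    omega
  obtain ⟨P, hP⟩ : ∃ P, P = (Cst * (h + (Nat.log 2 q + 1 + (2 + 1 + 1)) + 1)) ^ κ := ⟨_, rfl⟩
  have hPD : P ≤ D * (Nat.log 2 q + 1) ^ κ := by
    rw [hP, hD, ← mul_pow, mul_assoc]
    refine Nat.pow_le_pow_left (Nat.mul_le_mul_left _ ?_) _
    nlinarith [Nat.zero_le (Nat.log 2 q), Nat.zero_le h]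
  set X := (n : ℝ) * lam with hX
  have hX0 : 0 ≤ X := by positivity
  have hyR : (2 : ℝ) ≤ |(y : ℝ)| := by exact_mod_cast hy
  -- the size of `y`
  have hsize : (q : ℝ) * Real.log |(y : ℝ)| ≤ t + (n : ℝ) * L := by
    have h1 : |(y : ℝ)| ^ q ≤ (‖ψ a‖ + C + 1) * ‖ψ α‖ ^ n := by
      have h2 : ‖(u n : ℂ)‖ ≤ (‖ψ a‖ + C) * ‖ψ α‖ ^ n := by
        refine (norm_le_norm_sub_add _ (ψ a * ψ α ^ n)).trans ?_
        rw [norm_mul, norm_pow, add_mul]
        refine (add_le_add_left ((hu n).trans (mul_le_mul_of_nonneg_left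
          (pow_le_pow_left₀ hρ0 hρ.le n) hC)) _).trans ?_
        linarith
      rw [← heq] at h2
      push_cast at h2
      rw [norm_mul, norm_pow, Complex.norm_intCast, Complex.norm_intCast] at h2
      have hb1 : (1 : ℝ) ≤ |(b : ℝ)| := by exact_mod_cast Int.one_le_abs hb
      refine (le_mul_of_one_le_left (by positivity) hb1).trans (h2.trans ?_)
      exact mul_le_mul_of_nonneg_right (by linarith) (by positivity)
    have h3 := Real.log_le_log (by positivity) h1
    rw [Real.log_mul (by positivity) (by positivity), Real.log_pow, Real.log_pow] at h3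
    linarith
  have hvalue : (q : ℝ) / 2 ≤ t + N * X := by
    have h1 : (1 / 2 : ℝ) ≤ Real.log |(y : ℝ)| :=
      le_trans (by linarith [Real.log_two_gt_d9]) (Real.log_le_log two_pos hyR)
    have h2 : (q : ℝ) * (1 / 2) ≤ (q : ℝ) * Real.log |(y : ℝ)| :=
      mul_le_mul_of_nonneg_left h1 (Nat.cast_nonneg _)
    have h3 : (n : ℝ) * L ≤ N * X := by
      rw [hX, show (n : ℝ) * L = L / lam * (n * lam) by field_simp]
      exact mul_le_mul_of_nonneg_right (Nat.le_ceil _) (by positivity)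
    linarith
  have hXle : X ≤ c + (X / q + 1) * ((W * P : ℕ) : ℝ) := by
    have hnn : 0 ≤ (X / q + 1) * ((W * P : ℕ) : ℝ) := by positivity
    set δ := ((u n : ℂ) - ψ a * ψ α ^ n) / (ψ a * ψ α ^ n) with hδ
    have hδle : ‖δ‖ ≤ C / ‖ψ a‖ * θ ^ n := by
      rw [hδ, norm_div, norm_mul, norm_pow]
      refine (div_le_div_of_nonneg_right (hu n) (by positivity)).trans ?_
      rw [mul_div_mul_comm, ← div_pow]
      exact mul_le_mul_of_nonneg_left (pow_le_pow_left₀ (by positivity) (le_max_left _ _) n)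
        (by positivity)
    have hθn : Real.exp (-X) = θ ^ n := by
      rw [hX, hlam, mul_neg, neg_neg, Real.exp_nat_mul, Real.exp_log hθ0]
    have hcle : 2 * (C / ‖ψ a‖) + 1 ≤ c := Nat.le_ceil _
    rcases le_or_gt (Real.exp X) (2 * (C / ‖ψ a‖) + 1) with hsmall | hlarge
    · linarith [Real.add_one_le_exp X]
    have hδ2 : ‖δ‖ ≤ 1 / 2 := by
      refine hδle.trans ?_
      rw [← hθn, Real.exp_neg, ← div_eq_mul_inv, div_le_iff₀ (Real.exp_pos _)]
      linarith
    have haα : a * α ^ n ≠ 0 := mul_ne_zero ha (pow_ne_zero _ hα0)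
    have hψ0 : ψ a * ψ α ^ n ≠ 0 := by
      rw [← map_pow, ← map_mul]; exact (map_ne_zero ψ).2 haα
    have hδ0 : δ ≠ 0 := div_ne_zero (sub_ne_zero.2 fun h => hne (ψ.injective (by
      rw [map_intCast, map_mul, map_pow]; exact h))) hψ0
    have hw : ψ ((u n : K) / (a * α ^ n)) = 1 + δ := by
      rw [hδ, map_div₀, map_intCast, map_mul, map_pow, sub_div, div_self hψ0]
      ring
    have hy0 : (y : K) ≠ 0 := Int.cast_ne_zero.2 fun h => by simp [h] at hy
    have hun0 : (u n : K) ≠ 0 := by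
      rw [← heq]; push_cast; exact mul_ne_zero (Int.cast_ne_zero.2 hb) (pow_ne_zero _ hy0)
    have hw0 : (1 : ℂ) + δ ≠ 0 := hw ▸ (map_ne_zero ψ).2 (div_ne_zero hun0 haα)
    set k := n / q
    set η : Kˣ := Units.mk0 ((y : K) * (α ^ k)⁻¹)
      (mul_ne_zero hy0 (inv_ne_zero (pow_ne_zero _ hα0)))
      with hηdef
    set R := ⌊(n : ℝ) / q⌋₊ + 1 with hR
    have hnR : (n : ℝ) / q ≤ R := by rw [hR]; push_cast; exact (Nat.lt_floor_add_one _).le
    have hR1 : (1 : ℝ) ≤ R := by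
      rw [hR]; push_cast; linarith [Nat.cast_nonneg (α := ℝ) ⌊(n : ℝ) / q⌋₊]
    have hkR : (k : ℝ) ≤ R := Nat.cast_div_le.trans hnR
    have hη : ((u n : K) / (a * α ^ n)) ^ 1 =
        (∏ i, (G i : K) ^ (![1, n % q] : Fin 2 → ℕ) i) * (η : K) ^ q := by
      simp only [hGdef, hηdef, Fin.prod_univ_two, Matrix.cons_val_zero, Matrix.cons_val_one,
        Units.val_mk0, pow_one]
      rw [← heq, mul_pow, inv_pow, inv_pow, ← pow_mul,
        show α ^ n = α ^ (n % q) * α ^ (k * q) by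
          rw [← pow_add, mul_comm, Nat.mod_add_div]]
      push_cast
      field_simp
    have hη1 : Height.logHeight₁ (η : K) + 4 ≤ ((h * R : ℕ) : ℝ) := by
      have h1 : Height.logHeight₁ (η : K) ≤
          (d : ℝ) * (Real.log |(y : ℝ)| + cy) + (k : ℝ) * t := by
        simp only [hηdef, Units.val_mk0]
        refine (Height.logHeight₁_mul_le _ _).trans (add_le_add ?_ ?_)
        · simpa using hcy y (fun h => by simp [h] at hy)
        · rw [Height.logHeight₁_inv, Height.logHeight₁_pow]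
          exact mul_le_mul_of_nonneg_left htα (Nat.cast_nonneg _)
      have h2 : Real.log |(y : ℝ)| ≤ 2 * t * R := by
        have hq0 : (0 : ℝ) < q := by exact_mod_cast (by omega : 0 < q)
        have h3 : Real.log |(y : ℝ)| ≤ t / q + (n : ℝ) / q * L := by
          rw [div_mul_eq_mul_div, ← add_div, le_div_iff₀ hq0]; linarith
        have h4 : (t : ℝ) / q ≤ t * R :=
          (div_le_self (Nat.cast_nonneg _) (by exact_mod_cast (by omega : 1 ≤ q))).trans
            (le_mul_of_one_le_right (Nat.cast_nonneg _) hR1)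
        have h5 : (n : ℝ) / q * L ≤ R * t := mul_le_mul hnR htL hL0.le (Nat.cast_nonneg _)
        linarith
      have h6 : (d : ℝ) * (Real.log |(y : ℝ)| + cy) ≤ (d : ℝ) * ((2 * t + cy) * R) := by
        refine mul_le_mul_of_nonneg_left ?_ (Nat.cast_nonneg _)
        have := le_mul_of_one_le_right (Nat.cast_nonneg (α := ℝ) cy) hR1
        linarith
      have h7 : (k : ℝ) * t ≤ (R : ℝ) * t := mul_le_mul_of_nonneg_right hkR (Nat.cast_nonneg _)
      have h8 : (4 : ℝ) * 1 ≤ (t + 8 : ℝ) * R := mul_le_mul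
        (by linarith [Nat.cast_nonneg (α := ℝ) t]) hR1 zero_le_one (by positivity)
      rw [hh]
      push_cast
      linarith
    have h0 := form_le ψ (m := q) (E := 1) (by omega) one_pos G η (r := ![1, n % q])
      (fun i => by fin_cases i <;> simp <;> first | omega | exact Nat.mod_lt _ (by omega))
      hη hw hδ2 hδ0 hw0 (h := h) (R := R) (by omega) (by omega)
      (fun i => by
        have h9 : ((t + 4 : ℕ) : ℝ) ≤ (h : ℕ) := Nat.cast_le.2 (by omega)
        push_cast at h9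
        fin_cases i <;> simp only [Fin.isValue, Fin.mk_one, Fin.zero_eta] <;> linarith)
      hη1
    rw [hCst, hκdef, ← hP] at h0
    have h1 : Real.exp X ≤ 2 * (C / ‖ψ a‖) * (2 : ℝ) ^ (R * P) := by
      have h2 : 1 / (2 : ℝ) ^ (R * P) ≤ 2 * (C / ‖ψ a‖) * Real.exp (-X) := by
        rw [hθn]
        refine h0.trans ?_
        push_cast
        linarith [norm_nonneg δ]
      rw [Real.exp_neg, ← div_eq_mul_inv, div_le_div_iff₀ (by positivity) (Real.exp_pos _)] at h2
      linarith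
    have hCa : 0 < C / ‖ψ a‖ := by
      by_contra hle
      push Not at hle
      nlinarith [Real.exp_pos X, pow_pos (two_pos (α := ℝ)) (R * P)]
    have h3 := Real.log_le_log (Real.exp_pos _) h1
    rw [Real.log_exp, Real.log_mul (by positivity) (by positivity), Real.log_pow] at h3
    have h4 : Real.log (2 * (C / ‖ψ a‖)) ≤ c :=
      (Real.log_le_self (by positivity)).trans (by linarith)
    have h5 : ((R * P : ℕ) : ℝ) * Real.log 2 ≤ (X / q + 1) * ((W * P : ℕ) : ℝ) := by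
      refine (mul_le_of_le_one_right (Nat.cast_nonneg _)
        (by linarith [Real.log_two_lt_d9])).trans ?_
      push_cast
      rw [← mul_assoc]
      refine mul_le_mul_of_nonneg_right ?_ (Nat.cast_nonneg _)
      have hWle : max 1 lam⁻¹ ≤ (W : ℝ) := Nat.le_ceil _
      rw [add_mul, one_mul]
      have h6 : (n : ℝ) / q ≤ X / q * W := by
        have h7 : (1 : ℝ) ≤ lam * W := by
          rw [← mul_inv_cancel₀ hlam0.ne']
          exact mul_le_mul_of_nonneg_left ((le_max_right _ _).trans hWle) hlam0.le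
        rw [hX, mul_div_right_comm, mul_assoc]
        exact le_mul_of_one_le_right (by positivity) h7
      rw [hR]
      push_cast
      linarith [Nat.floor_le (show (0 : ℝ) ≤ (n : ℝ) / q by positivity),
        (le_max_left _ _).trans hWle]
    linarith
  have hfinal := exponent_le hX0 (Nat.cast_nonneg _) (Nat.cast_nonneg _) (Nat.cast_nonneg _)
    (Nat.cast_nonneg _) hvalue hXle
  have h9 : ((W * P : ℕ) : ℝ) ≤ ((W * (D * (Nat.log 2 q + 1) ^ κ) : ℕ) : ℝ) :=
    Nat.cast_le.2 (Nat.mul_le_mul_left _ hPD)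
  have h10 := mul_le_mul_of_nonneg_left h9 (show (0 : ℝ) ≤ 4 * N + 2 by positivity)
  have h11 : (q : ℝ) ≤
      ((2 * t + 4 * N * c + (4 * N + 2) * (W * D) * (Nat.log 2 q + 1) ^ κ : ℕ) : ℝ) := by
    push_cast at h10 hfinal ⊢
    linarith
  exact_mod_cast h11

end FA.RecurrencePowerBound

end
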